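import Mathlib

/-!
# S16 / LB : Poisson summation for Gaussians in `n` variables (helper36)

`gaussian_poisson` : for a real symmetric positive definite matrix `A` with inverse `B`,
`Re s > 0` and `w ∈ ℂⁿ`,
`∑_{x ∈ ℤⁿ} exp(-π s xᵀAx + 2π i w·x) = s^{-n/2} det(A)^{-1/2} ∑_{y ∈ ℤⁿ} exp(-π (y-w)ᵀB(y-w) / s)`.

Proof: induction on `n`, splitting off the first variable (Schur complement) and using Mathlib's
one-variable formula `Complex.tsum_exp_neg_quadratic`.
-/

set_option autoImplicit false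

open Complex Real Finset

namespace Fermat.Agent.S16.H36

variable {n : ℕ}

/-- Real symmetric positive definite, in coordinates. -/
def IsPD (A : Matrix (Fin n) (Fin n) ℝ) : Prop :=
  (∀ i j, A i j = A j i) ∧ ∀ x : Fin n → ℝ, x ≠ 0 → 0 < ∑ i, ∑ j, A i j * x i * x j

/-- The (complex) quadratic form of a real matrix. -/
noncomputable def qf (A : Matrix (Fin n) (Fin n) ℝ) (z : Fin n → ℂ) : ℂ :=
  ∑ i, ∑ j, (A i j : ℂ) * z i * z j

/-- The real quadratic form of a real matrix. -/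
noncomputable def rqf (A : Matrix (Fin n) (Fin n) ℝ) (x : Fin n → ℝ) : ℝ :=
  ∑ i, ∑ j, A i j * x i * x j

theorem qf_ofReal (A : Matrix (Fin n) (Fin n) ℝ) (x : Fin n → ℝ) :
    qf A (fun i => (x i : ℂ)) = (rqf A x : ℂ) := by
  simp only [qf, rqf]
  push_cast
  rfl

/-- Schur complement of the `(0,0)` entry. -/
noncomputable def schur (A : Matrix (Fin (n + 1)) (Fin (n + 1)) ℝ) : Matrix (Fin n) (Fin n) ℝ :=
  fun i j => A i.succ j.succ - A i.succ 0 * A 0 j.succ / A 0 0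

/-- Completing the square in the first variable. -/
theorem qf_succ (A : Matrix (Fin (n + 1)) (Fin (n + 1)) ℝ) (hsymm : ∀ i j, A i j = A j i)
    (ha : A 0 0 ≠ 0) (z : Fin (n + 1) → ℂ) :
    qf A z = (A 0 0 : ℂ) * (z 0 + (∑ j : Fin n, (A 0 j.succ : ℂ) * z j.succ) / (A 0 0 : ℂ)) ^ 2
      + qf (schur A) (fun i => z i.succ) := by
  have ha' : (A 0 0 : ℂ) ≠ 0 := by exact_mod_cast ha
  set β : ℂ := ∑ j : Fin n, (A 0 j.succ : ℂ) * z j.succ with hβ
  set γ : ℂ := ∑ i : Fin n, ∑ j : Fin n, (A i.succ j.succ : ℂ) * z i.succ * z j.succ with hγ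
  have h1 : qf A z = (A 0 0 : ℂ) * z 0 * z 0 + z 0 * β + z 0 * β + γ := by
    simp only [qf, Fin.sum_univ_succ, Finset.sum_add_distrib]
    have e1 : ∑ j : Fin n, (A 0 j.succ : ℂ) * z 0 * z j.succ = z 0 * β := by
      rw [hβ, Finset.mul_sum]
      exact Finset.sum_congr rfl fun j _ => by ring
    have e2 : ∑ i : Fin n, (A i.succ 0 : ℂ) * z i.succ * z 0 = z 0 * β := by
      rw [hβ, Finset.mul_sum]
      exact Finset.sum_congr rfl fun j _ => by rw [hsymm j.succ 0]; ring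
    rw [e1, e2]
    ring
  have h2 : qf (schur A) (fun i => z i.succ) = γ - β * β / (A 0 0 : ℂ) := by
    simp only [qf, schur]
    push_cast
    have : ∀ i j : Fin n, ((A i.succ j.succ : ℂ) - (A i.succ 0 : ℂ) * (A 0 j.succ : ℂ) / (A 0 0 : ℂ))
        * z i.succ * z j.succ = (A i.succ j.succ : ℂ) * z i.succ * z j.succ
          - ((A 0 i.succ : ℂ) * z i.succ) * ((A 0 j.succ : ℂ) * z j.succ) / (A 0 0 : ℂ) := by
      intro i j
      rw [hsymm i.succ 0]
      ring
    simp only [this, Finset.sum_sub_distrib]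
    rw [hγ, hβ, Finset.sum_mul_sum, Finset.sum_div]
    congr 1
    refine Finset.sum_congr rfl fun i _ => ?_
    rw [Finset.sum_div]
  rw [h1, h2]
  field_simp
  ring

theorem rqf_succ (A : Matrix (Fin (n + 1)) (Fin (n + 1)) ℝ) (hsymm : ∀ i j, A i j = A j i)
    (ha : A 0 0 ≠ 0) (x : Fin (n + 1) → ℝ) :
    rqf A x = A 0 0 * (x 0 + (∑ j : Fin n, A 0 j.succ * x j.succ) / A 0 0) ^ 2
      + rqf (schur A) (fun i => x i.succ) := by
  have h := qf_succ A hsymm ha (fun i => (x i : ℂ))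
  rw [qf_ofReal, qf_ofReal] at h
  exact_mod_cast h

theorem IsPD.pivot_pos {A : Matrix (Fin (n + 1)) (Fin (n + 1)) ℝ} (hA : IsPD A) : 0 < A 0 0 := by
  have h := hA.2 (Pi.single 0 1) (by
    intro h
    have := congrFun h 0
    simp at this)
  have e : ∀ i j : Fin (n + 1), A i j * (Pi.single 0 1 : Fin (n + 1) → ℝ) i *
      (Pi.single 0 1 : Fin (n + 1) → ℝ) j = if i = 0 then (if j = 0 then A 0 0 else 0) else 0 := by
    intro i j
    by_cases hi : i = 0
    · by_cases hj : j = 0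
      · subst hi; subst hj; simp
      · subst hi; simp [hj]
    · simp [hi]
  simpa [e] using h

theorem IsPD.schur {A : Matrix (Fin (n + 1)) (Fin (n + 1)) ℝ} (hA : IsPD A) : IsPD (schur A) := by
  have ha := hA.pivot_pos
  refine ⟨fun i j => ?_, fun v hv => ?_⟩
  · simp only [Fermat.Agent.S16.H36.schur]
    rw [hA.1 i.succ j.succ, hA.1 i.succ 0, hA.1 0 j.succ]
    ring
  · let x : Fin (n + 1) → ℝ := Fin.cons (-(∑ j : Fin n, A 0 j.succ * v j) / A 0 0) v
    have hx : x ≠ 0 := by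
      intro h
      apply hv
      funext i
      have := congrFun h i.succ
      simpa [x] using this
    have h := hA.2 x hx
    have h2 := rqf_succ A hA.1 ha.ne' x
    simp only [rqf] at h2
    rw [h2] at h
    have e0 : x 0 = -(∑ j : Fin n, A 0 j.succ * v j) / A 0 0 := by simp [x]
    have e1 : ∀ j : Fin n, x j.succ = v j := fun j => by simp [x]
    simp only [e0, e1] at h
    have e2 : -(∑ j : Fin n, A 0 j.succ * v j) / A 0 0 + (∑ j : Fin n, A 0 j.succ * v j) / A 0 0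
        = 0 := by ring
    rw [e2] at h
    simpa using h


/-! ### Linear algebra: inverse and determinant -/

/-- `A *ᵥ u` for a real matrix and a complex vector, in coordinates. -/
noncomputable def cmulVec (A : Matrix (Fin n) (Fin n) ℝ) (u : Fin n → ℂ) : Fin n → ℂ :=
  fun i => ∑ j, (A i j : ℂ) * u j

theorem cmulVec_mul (A B : Matrix (Fin n) (Fin n) ℝ) (u : Fin n → ℂ) :
    cmulVec A (cmulVec B u) = cmulVec (A * B) u := by
  funext i
  simp only [cmulVec, Matrix.mul_apply, Finset.mul_sum]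
  push_cast
  simp only [Finset.sum_mul]
  rw [Finset.sum_comm]
  refine Finset.sum_congr rfl fun j _ => Finset.sum_congr rfl fun k _ => by ring

theorem cmulVec_one (u : Fin n → ℂ) : cmulVec (1 : Matrix (Fin n) (Fin n) ℝ) u = u := by
  funext i
  simp only [cmulVec, Matrix.one_apply]
  rw [Finset.sum_eq_single i]
  · simp
  · intro j _ hj
    simp [Ne.symm hj]
  · simp

theorem qf_eq_sum_cmulVec (A : Matrix (Fin n) (Fin n) ℝ) (z : Fin n → ℂ) :
    qf A z = ∑ i, z i * cmulVec A z i := by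
  simp only [qf, cmulVec, Finset.mul_sum]
  refine Finset.sum_congr rfl fun i _ => Finset.sum_congr rfl fun j _ => by ring

theorem symm_of_mul_eq_one {A B : Matrix (Fin n) (Fin n) ℝ} (hA : ∀ i j, A i j = A j i)
    (hAB : A * B = 1) : ∀ i j, B i j = B j i := by
  have hAt : A.transpose = A := by
    ext i j
    exact (hA i j).symm
  have hBA : B * A = 1 := mul_eq_one_comm.mp hAB
  have h1 : B.transpose * A = 1 := by
    have := congrArg Matrix.transpose hAB
    rwa [Matrix.transpose_mul, hAt, Matrix.transpose_one] at this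
  have h2 : B.transpose = B := by
    calc B.transpose = B.transpose * (A * B) := by rw [hAB, Matrix.mul_one]
      _ = (B.transpose * A) * B := by rw [Matrix.mul_assoc]
      _ = B := by rw [h1, Matrix.one_mul]
  intro i j
  have := congrFun (congrFun h2 i) j
  simpa [Matrix.transpose_apply] using this.symm

/-- `qf B (A u) = qf A u` when `B` is the (symmetric) inverse of `A`. -/
theorem qf_inv_cmulVec {A B : Matrix (Fin n) (Fin n) ℝ}
    (hAB : A * B = 1) (u : Fin n → ℂ) : qf B (cmulVec A u) = qf A u := by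
  have hBA : B * A = 1 := mul_eq_one_comm.mp hAB
  rw [qf_eq_sum_cmulVec, cmulVec_mul, hBA, cmulVec_one, qf_eq_sum_cmulVec]
  refine Finset.sum_congr rfl fun i _ => by ring

theorem IsPD.inv {A B : Matrix (Fin n) (Fin n) ℝ} (hA : IsPD A) (hAB : A * B = 1) : IsPD B := by
  have hBA : B * A = 1 := mul_eq_one_comm.mp hAB
  refine ⟨symm_of_mul_eq_one hA.1 hAB, fun x hx => ?_⟩
  -- `u = B x`, `A u = x`
  let u : Fin n → ℝ := B.mulVec x
  have hAu : A.mulVec u = x := by
    simp only [u, Matrix.mulVec_mulVec, hAB, Matrix.one_mulVec]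
  have hu : u ≠ 0 := by
    intro h
    apply hx
    rw [← hAu, h, Matrix.mulVec_zero]
  have h := hA.2 u hu
  have e1 : ∑ i, ∑ j, A i j * u i * u j = ∑ i, u i * x i := by
    refine Finset.sum_congr rfl fun i _ => ?_
    have : x i = ∑ j, A i j * u j := by
      rw [← hAu]; rfl
    rw [this, Finset.mul_sum]
    refine Finset.sum_congr rfl fun j _ => by ring
  have e2 : ∑ i, ∑ j, B i j * x i * x j = ∑ i, u i * x i := by
    refine Finset.sum_congr rfl fun i _ => ?_
    have : u i = ∑ j, B i j * x j := rfl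
    rw [this, Finset.sum_mul]
    refine Finset.sum_congr rfl fun j _ => by ring
  rw [e2, ← e1]
  exact h

/-- The lower right block of the inverse is the inverse of the Schur complement. -/
theorem schur_mul_submatrix {A B : Matrix (Fin (n + 1)) (Fin (n + 1)) ℝ} (ha : A 0 0 ≠ 0)
    (hAB : A * B = 1) : schur A * B.submatrix Fin.succ Fin.succ = 1 := by
  ext i j
  have h0 : ∑ k : Fin n, A 0 k.succ * B k.succ j.succ = -(A 0 0 * B 0 j.succ) := by
    have := congrFun (congrFun hAB 0) j.succ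
    rw [Matrix.mul_apply, Fin.sum_univ_succ, Matrix.one_apply_ne (Fin.succ_ne_zero j).symm] at this
    linarith
  have h1 : A i.succ 0 * B 0 j.succ + ∑ k : Fin n, A i.succ k.succ * B k.succ j.succ
      = (1 : Matrix (Fin (n + 1)) (Fin (n + 1)) ℝ) i.succ j.succ := by
    have := congrFun (congrFun hAB i.succ) j.succ
    rw [Matrix.mul_apply, Fin.sum_univ_succ] at this
    exact this
  rw [Matrix.mul_apply]
  simp only [schur, Matrix.submatrix_apply]
  have e : ∀ k : Fin n, (A i.succ k.succ - A i.succ 0 * A 0 k.succ / A 0 0) * B k.succ j.succ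
      = A i.succ k.succ * B k.succ j.succ - A i.succ 0 / A 0 0 * (A 0 k.succ * B k.succ j.succ) := by
    intro k; ring
  simp only [e, Finset.sum_sub_distrib, ← Finset.mul_sum]
  rw [h0]
  have h2 : A i.succ 0 / A 0 0 * -(A 0 0 * B 0 j.succ) = -(A i.succ 0 * B 0 j.succ) := by
    field_simp
  rw [h2, sub_neg_eq_add, add_comm, h1]
  by_cases hij : i = j
  · subst hij; simp
  · rw [Matrix.one_apply_ne hij, Matrix.one_apply_ne (fun h => hij (Fin.succ_injective _ h))]

/-- Decomposition of the inverse quadratic form along the first variable. -/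
theorem qf_inv_succ {A B : Matrix (Fin (n + 1)) (Fin (n + 1)) ℝ} (hA : IsPD A)
    (hAB : A * B = 1) (z : Fin (n + 1) → ℂ) :
    qf B z = (z 0) ^ 2 / (A 0 0 : ℂ)
      + qf (B.submatrix Fin.succ Fin.succ)
          (fun i => z i.succ - (A 0 i.succ : ℂ) * z 0 / (A 0 0 : ℂ)) := by
  have ha := hA.pivot_pos
  have ha' : (A 0 0 : ℂ) ≠ 0 := by exact_mod_cast ha.ne'
  have hBA : B * A = 1 := mul_eq_one_comm.mp hAB
  set u : Fin (n + 1) → ℂ := cmulVec B z with hu
  have hz : cmulVec A u = z := by rw [hu, cmulVec_mul, hAB, cmulVec_one]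
  have hS := schur_mul_submatrix ha.ne' hAB
  set β : ℂ := ∑ j : Fin n, (A 0 j.succ : ℂ) * u j.succ with hβ
  have hz0 : z 0 = (A 0 0 : ℂ) * u 0 + β := by
    conv_lhs => rw [← hz]
    simp only [cmulVec, Fin.sum_univ_succ]
    rfl
  have hzs : ∀ i : Fin n, z i.succ = (A 0 i.succ : ℂ) * u 0
      + ∑ j : Fin n, (A i.succ j.succ : ℂ) * u j.succ := by
    intro i
    conv_lhs => rw [← hz]
    simp only [cmulVec, Fin.sum_univ_succ]
    rw [hA.1 i.succ 0]
  have hSu : cmulVec (schur A) (fun i => u i.succ)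
      = fun i => z i.succ - (A 0 i.succ : ℂ) * z 0 / (A 0 0 : ℂ) := by
    funext i
    simp only [cmulVec, schur]
    push_cast
    have e : ∀ j : Fin n, ((A i.succ j.succ : ℂ) - (A i.succ 0 : ℂ) * (A 0 j.succ : ℂ) / (A 0 0 : ℂ))
        * u j.succ = (A i.succ j.succ : ℂ) * u j.succ
          - (A 0 i.succ : ℂ) / (A 0 0 : ℂ) * ((A 0 j.succ : ℂ) * u j.succ) := by
      intro j
      rw [hA.1 i.succ 0]
      ring
    simp only [e, Finset.sum_sub_distrib, ← Finset.mul_sum]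
    rw [hzs i, hz0, ← hβ]
    field_simp
    ring
  have h1 : qf B z = qf A u := by
    rw [← hz]
    exact qf_inv_cmulVec hAB u
  have h2 : qf (B.submatrix Fin.succ Fin.succ)
      (fun i => z i.succ - (A 0 i.succ : ℂ) * z 0 / (A 0 0 : ℂ)) = qf (schur A) (fun i => u i.succ) := by
    rw [← hSu]
    exact qf_inv_cmulVec hS _
  rw [h1, h2, qf_succ A hA.1 ha.ne' u, ← hβ, hz0]
  field_simp

/-- `det A = A₀₀ · det (schur A)`. -/
theorem det_eq_pivot_mul_det_schur (A : Matrix (Fin (n + 1)) (Fin (n + 1)) ℝ) (ha : A 0 0 ≠ 0) :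
    A.det = A 0 0 * (schur A).det := by
  let c : Fin (n + 1) → ℝ := Fin.cons 0 (fun i => A i.succ 0 / A 0 0)
  let A' : Matrix (Fin (n + 1)) (Fin (n + 1)) ℝ := fun i j => A i j - c i * A 0 j
  have hc0 : c 0 = 0 := rfl
  have hcs : ∀ i : Fin n, c i.succ = A i.succ 0 / A 0 0 := fun i => by simp [c]
  have hA'0 : ∀ j, A' 0 j = A 0 j := fun j => by simp [A', hc0]
  have h1 : A.det = A'.det := by
    refine Matrix.det_eq_of_forall_row_eq_smul_add_const c 0 hc0 fun i j => ?_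
    rw [hA'0]
    simp [A']
  rw [h1, Matrix.det_succ_column_zero, Fin.sum_univ_succ]
  have h2 : ∀ i : Fin n, A' i.succ 0 = 0 := by
    intro i
    simp only [A', hcs]
    field_simp
    ring
  simp only [h2, mul_zero, zero_mul, Finset.sum_const_zero, add_zero, Fin.val_zero, pow_zero,
    one_mul, hA'0, Fin.succAbove_zero]
  congr 1
  congr 1
  ext i j
  show A i.succ j.succ - c i.succ * A 0 j.succ = A i.succ j.succ - A i.succ 0 * A 0 j.succ / A 0 0
  rw [hcs]
  ring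

theorem IsPD.det_pos : ∀ {n : ℕ} {A : Matrix (Fin n) (Fin n) ℝ}, IsPD A → 0 < A.det := by
  intro n
  induction n with
  | zero => intro A _; simp
  | succ n ih =>
    intro A hA
    rw [det_eq_pivot_mul_det_schur A hA.pivot_pos.ne']
    exact mul_pos hA.pivot_pos (ih hA.schur)


/-! ### Summability -/

/-- One-variable Gaussian families are summable. -/
theorem summable_gauss_one {T : ℝ} (hT : 0 < T) (Z : ℝ) :
    Summable (fun k : ℤ => rexp (-π * T * (k : ℝ) ^ 2 - 2 * π * Z * k)) := by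
  have h := ((summable_jacobiTheta₂_term_iff (Z * I) (T * I)).mpr (by simpa using hT)).norm
  refine h.congr fun k => ?_
  rw [norm_jacobiTheta₂_term]
  congr 1
  simp
  ring

/-- Products of summable nonnegative one-variable families are summable on `ℤⁿ`. -/
theorem summable_pi_prod : ∀ (n : ℕ) (φ : Fin n → ℤ → ℝ), (∀ i k, 0 ≤ φ i k) →
    (∀ i, Summable (φ i)) → Summable (fun x : Fin n → ℤ => ∏ i, φ i (x i)) := by
  intro n
  induction n with
  | zero =>
    intro φ _ _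
    exact (hasSum_fintype _).summable
  | succ n ih =>
    intro φ h0 hs
    have hg : Summable (fun x' : Fin n → ℤ => ∏ i : Fin n, φ i.succ (x' i)) :=
      ih (fun i => φ i.succ) (fun i k => h0 _ k) (fun i => hs _)
    have h1 : Summable (fun p : ℤ × (Fin n → ℤ) => φ 0 p.1 * ∏ i : Fin n, φ i.succ (p.2 i)) :=
      Summable.mul_of_nonneg (f := φ 0)
        (g := fun x' : Fin n → ℤ => ∏ i : Fin n, φ i.succ (x' i)) (hs 0) hg
        (fun k => h0 0 k) (fun x => Finset.prod_nonneg fun i _ => h0 _ _)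
    have h2 := (Equiv.summable_iff (Fin.consEquiv (fun _ : Fin (n + 1) => ℤ)).symm).mpr h1
    refine h2.congr fun x => ?_
    rw [Fin.prod_univ_succ]
    rfl

/-- A positive definite form dominates a multiple of the sum of squares. -/
theorem IsPD.exists_lower_bound {A : Matrix (Fin n) (Fin n) ℝ} (hA : IsPD A) :
    ∃ μ : ℝ, 0 < μ ∧ ∀ x : Fin n → ℝ, μ * ∑ i, x i ^ 2 ≤ rqf A x := by
  rcases Nat.eq_zero_or_pos n with hn | hn
  · subst hn
    exact ⟨1, one_pos, fun x => by simp [rqf]⟩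
  have : Nonempty (Fin n) := ⟨⟨0, hn⟩⟩
  have hcont : Continuous (rqf A) := by
    unfold rqf
    fun_prop
  have hcpt : IsCompact (Metric.sphere (0 : Fin n → ℝ) 1) := isCompact_sphere 0 1
  have hne : (Metric.sphere (0 : Fin n → ℝ) 1).Nonempty :=
    NormedSpace.sphere_nonempty.mpr zero_le_one
  obtain ⟨x₀, hx₀, hmin⟩ := hcpt.exists_isMinOn hne hcont.continuousOn
  have hx₀' : x₀ ≠ 0 := by
    intro h
    rw [h] at hx₀
    simp at hx₀
  have hμ₀ : 0 < rqf A x₀ := hA.2 x₀ hx₀'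
  have hhom : ∀ (c : ℝ) (x : Fin n → ℝ), rqf A (c • x) = c ^ 2 * rqf A x := by
    intro c x
    simp only [rqf, Pi.smul_apply, smul_eq_mul, Finset.mul_sum]
    refine Finset.sum_congr rfl fun i _ => Finset.sum_congr rfl fun j _ => by ring
  have hbound : ∀ x : Fin n → ℝ, rqf A x₀ * ‖x‖ ^ 2 ≤ rqf A x := by
    intro x
    by_cases hx : x = 0
    · subst hx
      simp [rqf]
    have hnx : 0 < ‖x‖ := norm_pos_iff.mpr hx
    have hmem : ‖x‖⁻¹ • x ∈ Metric.sphere (0 : Fin n → ℝ) 1 := by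
      rw [mem_sphere_zero_iff_norm, norm_smul, norm_inv, norm_norm, inv_mul_cancel₀ hnx.ne']
    have h := isMinOn_iff.mp hmin _ hmem
    rw [hhom] at h
    have h' : rqf A x₀ ≤ (‖x‖⁻¹) ^ 2 * rqf A x := h
    have := mul_le_mul_of_nonneg_right h' (sq_nonneg ‖x‖)
    calc rqf A x₀ * ‖x‖ ^ 2 ≤ (‖x‖⁻¹) ^ 2 * rqf A x * ‖x‖ ^ 2 := this
      _ = rqf A x := by field_simp
  refine ⟨rqf A x₀ / n, div_pos hμ₀ (by exact_mod_cast hn), fun x => ?_⟩
  have hsum : ∑ i, x i ^ 2 ≤ n * ‖x‖ ^ 2 := by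
    have : ∀ i ∈ (Finset.univ : Finset (Fin n)), x i ^ 2 ≤ ‖x‖ ^ 2 := by
      intro i _
      have h1 : |x i| ≤ ‖x‖ := by
        simpa [Real.norm_eq_abs] using norm_le_pi_norm x i
      calc x i ^ 2 = |x i| ^ 2 := (sq_abs _).symm
        _ ≤ ‖x‖ ^ 2 := pow_le_pow_left₀ (abs_nonneg _) h1 2
    simpa using Finset.sum_le_card_nsmul _ _ _ this
  have hn' : (0 : ℝ) < n := by exact_mod_cast hn
  calc rqf A x₀ / n * ∑ i, x i ^ 2 ≤ rqf A x₀ / n * (n * ‖x‖ ^ 2) :=
        mul_le_mul_of_nonneg_left hsum (div_pos hμ₀ hn').le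
    _ = rqf A x₀ * ‖x‖ ^ 2 := by field_simp
    _ ≤ rqf A x := hbound x

/-- Real Gaussian families on `ℤⁿ` are summable. -/
theorem IsPD.summable_real {A : Matrix (Fin n) (Fin n) ℝ} (hA : IsPD A) {σ : ℝ} (hσ : 0 < σ)
    (v : Fin n → ℝ) :
    Summable (fun x : Fin n → ℤ =>
      rexp (-π * σ * rqf A (fun i => (x i : ℝ)) - 2 * π * ∑ i, v i * (x i : ℝ))) := by
  obtain ⟨μ, hμ, hbound⟩ := hA.exists_lower_bound
  have h1 := summable_pi_prod n (fun i k => rexp (-π * (σ * μ) * (k : ℝ) ^ 2 - 2 * π * v i * k))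
    (fun i k => (Real.exp_pos _).le) (fun i => summable_gauss_one (mul_pos hσ hμ) (v i))
  refine Summable.of_nonneg_of_le (fun x => (Real.exp_pos _).le) (fun x => ?_) h1
  rw [← Real.exp_sum]
  apply Real.exp_le_exp.mpr
  have h2 := hbound (fun i => (x i : ℝ))
  have h3 : ∑ i : Fin n, (-π * (σ * μ) * (x i : ℝ) ^ 2 - 2 * π * v i * (x i : ℝ))
      = -π * σ * (μ * ∑ i : Fin n, (x i : ℝ) ^ 2) - 2 * π * ∑ i, v i * (x i : ℝ) := by
    simp only [Finset.sum_sub_distrib, Finset.mul_sum]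
    congr 1
    · refine Finset.sum_congr rfl fun i _ => by ring
    · refine Finset.sum_congr rfl fun i _ => by ring
  rw [h3]
  have h4 : -π * σ * rqf A (fun i => (x i : ℝ)) ≤ -π * σ * (μ * ∑ i : Fin n, (x i : ℝ) ^ 2) := by
    have : 0 ≤ π * σ := (mul_pos Real.pi_pos hσ).le
    nlinarith
  linarith


/-! ### The Gaussian families -/

/-- The Gaussian summand `exp(-π s xᵀAx + 2π i w·x)`. -/
noncomputable def gterm (A : Matrix (Fin n) (Fin n) ℝ) (s : ℂ) (w : Fin n → ℂ)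
    (x : Fin n → ℤ) : ℂ :=
  cexp (-π * s * qf A (fun i => (x i : ℂ)) + 2 * π * I * ∑ i, w i * (x i : ℂ))

/-- The dual summand `exp(-π (y-w)ᵀB(y-w) / s)`. -/
noncomputable def dterm (B : Matrix (Fin n) (Fin n) ℝ) (s : ℂ) (w : Fin n → ℂ)
    (y : Fin n → ℤ) : ℂ :=
  cexp (-π / s * qf B (fun i => (y i : ℂ) - w i))

theorem norm_gterm (A : Matrix (Fin n) (Fin n) ℝ) (s : ℂ) (w : Fin n → ℂ) (x : Fin n → ℤ) :
    ‖gterm A s w x‖ = rexp (-π * s.re * rqf A (fun i => (x i : ℝ))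
      - 2 * π * ∑ i, (w i).im * (x i : ℝ)) := by
  rw [gterm, Complex.norm_exp]
  congr 1
  have h1 : (fun i => (x i : ℂ)) = fun i => (((x i : ℝ)) : ℂ) := by
    funext i; push_cast; rfl
  rw [h1, qf_ofReal]
  have h2 : (-(π : ℂ) * s * ((rqf A fun i => (x i : ℝ) : ℝ) : ℂ)).re
      = -π * s.re * rqf A (fun i => (x i : ℝ)) := by
    simp [mul_re]
  have h3 : (2 * (π : ℂ) * I * ∑ i, w i * (x i : ℂ)).re
      = - (2 * π * ∑ i, (w i).im * (x i : ℝ)) := by
    have : (2 * (π : ℂ) * I * ∑ i, w i * (x i : ℂ))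
        = ((2 * π : ℝ) : ℂ) * (I * ∑ i, w i * (x i : ℂ)) := by
      push_cast; ring
    rw [this, re_ofReal_mul, I_mul_re, Complex.im_sum]
    simp [mul_im]
  rw [add_re, h2, h3]
  ring

theorem IsPD.summable_gterm {A : Matrix (Fin n) (Fin n) ℝ} (hA : IsPD A) {s : ℂ}
    (hs : 0 < s.re) (w : Fin n → ℂ) : Summable (gterm A s w) := by
  apply Summable.of_norm
  simp only [norm_gterm]
  exact hA.summable_real hs (fun i => (w i).im)

theorem qf_sub {B : Matrix (Fin n) (Fin n) ℝ} (hB : ∀ i j, B i j = B j i) (y w : Fin n → ℂ) :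
    qf B (fun i => y i - w i) = qf B y - 2 * ∑ j, cmulVec B w j * y j + qf B w := by
  have e1 : ∑ i, ∑ j, (B i j : ℂ) * y i * w j = ∑ j, cmulVec B w j * y j := by
    simp only [cmulVec, Finset.sum_mul]
    refine Finset.sum_congr rfl fun i _ => Finset.sum_congr rfl fun j _ => by ring
  have e2 : ∑ i, ∑ j, (B i j : ℂ) * w i * y j = ∑ j, cmulVec B w j * y j := by
    rw [Finset.sum_comm]
    simp only [cmulVec, Finset.sum_mul]
    refine Finset.sum_congr rfl fun i _ => Finset.sum_congr rfl fun j _ => by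
      rw [hB j i]
  have e3 : qf B (fun i => y i - w i) = qf B y - ∑ i, ∑ j, (B i j : ℂ) * y i * w j
      - ∑ i, ∑ j, (B i j : ℂ) * w i * y j + qf B w := by
    simp only [qf, ← Finset.sum_sub_distrib, ← Finset.sum_add_distrib]
    refine Finset.sum_congr rfl fun i _ => Finset.sum_congr rfl fun j _ => by ring
  rw [e3, e1, e2]
  ring

theorem dterm_eq_gterm {B : Matrix (Fin n) (Fin n) ℝ} (hB : ∀ i j, B i j = B j i) (s : ℂ)
    (w : Fin n → ℂ) (y : Fin n → ℤ) :
    dterm B s w y = cexp (-π / s * qf B w)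
      * gterm B (1 / s) (fun j => -I / s * cmulVec B w j) y := by
  rw [dterm, gterm, ← Complex.exp_add, qf_sub hB]
  congr 1
  have : ∑ i, (-I / s * cmulVec B w i) * (y i : ℂ) = -I / s * ∑ i, cmulVec B w i * (y i : ℂ) := by
    rw [Finset.mul_sum]
    refine Finset.sum_congr rfl fun i _ => by ring
  rw [this]
  have hI : (2 : ℂ) * π * I * (-I / s * ∑ i, cmulVec B w i * (y i : ℂ))
      = 2 * π / s * ∑ i, cmulVec B w i * (y i : ℂ) := by
    calc (2 : ℂ) * π * I * (-I / s * ∑ i, cmulVec B w i * (y i : ℂ))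
        = -(I * I) * (2 * π / s * ∑ i, cmulVec B w i * (y i : ℂ)) := by ring
      _ = 2 * π / s * ∑ i, cmulVec B w i * (y i : ℂ) := by rw [I_mul_I]; ring
  rw [hI]
  ring

theorem IsPD.summable_dterm {B : Matrix (Fin n) (Fin n) ℝ} (hB : IsPD B) {s : ℂ}
    (hs : 0 < s.re) (w : Fin n → ℂ) : Summable (dterm B s w) := by
  have hs0 : s ≠ 0 := by
    intro h; rw [h] at hs; simp at hs
  have hs' : 0 < (1 / s).re := by
    rw [one_div, inv_re]
    exact div_pos hs (normSq_pos.mpr hs0)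
  have h := (hB.summable_gterm hs' (fun j => -I / s * cmulVec B w j)).mul_left
    (cexp (-π / s * qf B w))
  refine h.congr fun y => ?_
  rw [dterm_eq_gterm hB.1]


/-! ### The induction step -/

theorem mul_ofReal_cpow_half {a : ℝ} (ha : 0 < a) {s : ℂ} (hs : s ≠ 0) :
    (s * (a : ℂ)) ^ (1 / 2 : ℂ) = s ^ (1 / 2 : ℂ) * ((Real.sqrt a : ℝ) : ℂ) := by
  have ha' : (a : ℂ) ≠ 0 := by exact_mod_cast ha.ne'
  rw [mul_comm s, Complex.cpow_def_of_ne_zero (mul_ne_zero ha' hs),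
    Complex.cpow_def_of_ne_zero hs, Complex.log_ofReal_mul ha hs, add_mul, Complex.exp_add,
    mul_comm]
  congr 1
  rw [Real.sqrt_eq_rpow, Real.rpow_def_of_pos ha, Complex.ofReal_exp]
  congr 1
  push_cast
  ring

/-- `β(x') = ∑_j A₀,ⱼ₊₁ x'_j`. -/
noncomputable def beta (A : Matrix (Fin (n + 1)) (Fin (n + 1)) ℝ) (x' : Fin n → ℤ) : ℂ :=
  ∑ j : Fin n, (A 0 j.succ : ℂ) * (x' j : ℂ)

theorem gterm_cons {A : Matrix (Fin (n + 1)) (Fin (n + 1)) ℝ} (hA : IsPD A) (s : ℂ)
    (w : Fin (n + 1) → ℂ) (x0 : ℤ) (x' : Fin n → ℤ) :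
    gterm A s w (Fin.cons x0 x') =
      cexp (-π * s * (qf (schur A) (fun i => (x' i : ℂ)) + beta A x' ^ 2 / (A 0 0 : ℂ))
        + 2 * π * I * ∑ j : Fin n, w j.succ * (x' j : ℂ))
      * cexp (-π * (s * (A 0 0 : ℂ)) * (x0 : ℂ) ^ 2
        + 2 * π * (-s * beta A x' + I * w 0) * (x0 : ℂ)) := by
  have ha := hA.pivot_pos
  have ha' : (A 0 0 : ℂ) ≠ 0 := by exact_mod_cast ha.ne'
  rw [gterm, ← Complex.exp_add, qf_succ A hA.1 ha.ne', Fin.sum_univ_succ]
  simp only [Fin.cons_zero, Fin.cons_succ]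
  rw [← beta]
  congr 1
  field_simp
  ring

/-- The function of `(y₀, x')` obtained after Poisson summation in the first variable. -/
noncomputable def hterm (A : Matrix (Fin (n + 1)) (Fin (n + 1)) ℝ) (s : ℂ)
    (w : Fin (n + 1) → ℂ) (y0 : ℤ) (x' : Fin n → ℤ) : ℂ :=
  cexp (-π / (s * (A 0 0 : ℂ)) * ((y0 : ℂ) - w 0) ^ 2)
    * gterm (schur A) s
        (fun j => w j.succ + (A 0 j.succ : ℂ) * ((y0 : ℂ) - w 0) / (A 0 0 : ℂ)) x'

theorem tsum_gterm_cons {A : Matrix (Fin (n + 1)) (Fin (n + 1)) ℝ} (hA : IsPD A) {s : ℂ}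
    (hs : 0 < s.re) (w : Fin (n + 1) → ℂ) (x' : Fin n → ℤ) :
    ∑' x0 : ℤ, gterm A s w (Fin.cons x0 x') =
      1 / (s * (A 0 0 : ℂ)) ^ (1 / 2 : ℂ) * ∑' y0 : ℤ, hterm A s w y0 x' := by
  have ha := hA.pivot_pos
  have ha' : (A 0 0 : ℂ) ≠ 0 := by exact_mod_cast ha.ne'
  have hs0 : s ≠ 0 := by
    intro h; rw [h] at hs; simp at hs
  have hsa : 0 < (s * (A 0 0 : ℂ)).re := by
    rw [mul_comm, re_ofReal_mul]
    exact mul_pos ha hs
  simp only [gterm_cons hA]
  rw [tsum_mul_left, Complex.tsum_exp_neg_quadratic hsa, ← mul_assoc, mul_comm _ (1 / _),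
    mul_assoc, ← tsum_mul_left]
  congr 1
  refine tsum_congr fun y0 => ?_
  rw [hterm, gterm, ← Complex.exp_add, ← Complex.exp_add]
  congr 1
  have e1 : ∑ j : Fin n, (w j.succ + (A 0 j.succ : ℂ) * ((y0 : ℂ) - w 0) / (A 0 0 : ℂ)) * (x' j : ℂ)
      = ∑ j : Fin n, w j.succ * (x' j : ℂ) + beta A x' * ((y0 : ℂ) - w 0) / (A 0 0 : ℂ) := by
    rw [beta, Finset.sum_mul, Finset.sum_div, ← Finset.sum_add_distrib]
    refine Finset.sum_congr rfl fun j _ => by ring
  rw [e1]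
  have hI : I ^ 2 = -1 := I_sq
  field_simp
  linear_combination (2 * s * beta A x' * w 0 * I - s ^ 2 * beta A x' ^ 2 - 2 * (y0 : ℂ) * w 0
    + w 0 ^ 2 * (1 - I ^ 2)) * hI

theorem norm_hterm (A : Matrix (Fin (n + 1)) (Fin (n + 1)) ℝ) (s : ℂ)
    (w : Fin (n + 1) → ℂ) (y0 : ℤ) (x' : Fin n → ℤ) :
    ‖hterm A s w y0 x'‖ = ‖cexp (-π / (s * (A 0 0 : ℂ)) * ((y0 : ℂ) - w 0) ^ 2)‖
      * ‖gterm (schur A) s (fun j => w j.succ - (A 0 j.succ : ℂ) * w 0 / (A 0 0 : ℂ)) x'‖ := by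
  rw [hterm, norm_mul, norm_gterm, norm_gterm]
  have key : ∀ j : Fin n,
      (w j.succ + (A 0 j.succ : ℂ) * ((y0 : ℂ) - w 0) / (A 0 0 : ℂ)).im
        = (w j.succ - (A 0 j.succ : ℂ) * w 0 / (A 0 0 : ℂ)).im := by
    intro j
    have h1 : ((A 0 j.succ : ℂ) * ((y0 : ℂ) - w 0) / (A 0 0 : ℂ))
        = (((A 0 j.succ * y0 / A 0 0 : ℝ)) : ℂ) - (A 0 j.succ : ℂ) * w 0 / (A 0 0 : ℂ) := by
      push_cast
      ring
    rw [h1, add_im, sub_im, sub_im, ofReal_im]
    ring
  simp only [key]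

theorem summable_norm_g0 {a : ℝ} (ha : 0 < a) {s : ℂ} (hs : 0 < s.re) (w0 : ℂ) :
    Summable (fun y0 : ℤ => ‖cexp (-π / (s * (a : ℂ)) * ((y0 : ℂ) - w0) ^ 2)‖) := by
  have hs0 : s ≠ 0 := by
    intro h; rw [h] at hs; simp at hs
  have ha' : (a : ℂ) ≠ 0 := by exact_mod_cast ha.ne'
  set c : ℂ := 1 / (s * (a : ℂ)) with hc
  have hcre : 0 < c.re := by
    rw [hc, one_div, inv_re, mul_comm s, re_ofReal_mul]
    exact div_pos (mul_pos ha hs) (normSq_pos.mpr (mul_ne_zero ha' hs0))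
  have h := (summable_gauss_one hcre (-(c * w0).re)).mul_left (rexp (-π * (c * w0 ^ 2).re))
  refine h.congr fun y0 => ?_
  rw [Complex.norm_exp, ← Real.exp_add]
  congr 1
  have e : -(π : ℂ) / (s * (a : ℂ)) * ((y0 : ℂ) - w0) ^ 2
      = ((-π * (y0 : ℝ) ^ 2 : ℝ) : ℂ) * c + ((2 * π * (y0 : ℝ) : ℝ) : ℂ) * (c * w0)
        + ((-π : ℝ) : ℂ) * (c * w0 ^ 2) := by
    rw [hc]
    push_cast
    field_simp
    ring
  rw [e, add_re, add_re, re_ofReal_mul, re_ofReal_mul, re_ofReal_mul]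
  ring

theorem summable_hterm {A : Matrix (Fin (n + 1)) (Fin (n + 1)) ℝ} (hA : IsPD A) {s : ℂ}
    (hs : 0 < s.re) (w : Fin (n + 1) → ℂ) :
    Summable (Function.uncurry (hterm A s w)) := by
  apply Summable.of_norm
  have h1 := summable_norm_g0 hA.pivot_pos hs (w 0)
  have h2 := (hA.schur.summable_gterm hs
    (fun j => w j.succ - (A 0 j.succ : ℂ) * w 0 / (A 0 0 : ℂ))).norm
  have h3 := Summable.mul_of_nonneg
    (f := fun y0 : ℤ => ‖cexp (-π / (s * (A 0 0 : ℂ)) * ((y0 : ℂ) - w 0) ^ 2)‖)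
    (g := fun x' : Fin n → ℤ =>
      ‖gterm (schur A) s (fun j => w j.succ - (A 0 j.succ : ℂ) * w 0 / (A 0 0 : ℂ)) x'‖)
    h1 h2 (fun _ => norm_nonneg _) (fun _ => norm_nonneg _)
  refine h3.congr fun p => ?_
  rw [Function.uncurry, norm_hterm]

theorem hterm_dterm {A B : Matrix (Fin (n + 1)) (Fin (n + 1)) ℝ} (hA : IsPD A)
    (hAB : A * B = 1) (s : ℂ) (w : Fin (n + 1) → ℂ) (y0 : ℤ) (y' : Fin n → ℤ) :
    cexp (-π / (s * (A 0 0 : ℂ)) * ((y0 : ℂ) - w 0) ^ 2)
      * dterm (B.submatrix Fin.succ Fin.succ) s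
          (fun j => w j.succ + (A 0 j.succ : ℂ) * ((y0 : ℂ) - w 0) / (A 0 0 : ℂ)) y'
      = dterm B s w (Fin.cons y0 y') := by
  have ha := hA.pivot_pos
  have ha' : (A 0 0 : ℂ) ≠ 0 := by exact_mod_cast ha.ne'
  rw [dterm, dterm, ← Complex.exp_add, qf_inv_succ hA hAB]
  simp only [Fin.cons_zero, Fin.cons_succ]
  congr 1
  have e : (fun i : Fin n => (y' i : ℂ) - w i.succ - (A 0 i.succ : ℂ) * ((y0 : ℂ) - w 0) / (A 0 0 : ℂ))
      = fun i : Fin n => (y' i : ℂ)
          - (w i.succ + (A 0 i.succ : ℂ) * ((y0 : ℂ) - w 0) / (A 0 0 : ℂ)) := by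
    funext i; ring
  rw [e]
  by_cases hs : s = 0
  · subst hs; simp
  field_simp
  ring

/-- **Poisson summation for Gaussians on `ℤⁿ`.** -/
theorem gaussian_poisson : ∀ (n : ℕ) (A B : Matrix (Fin n) (Fin n) ℝ), IsPD A → A * B = 1 →
    ∀ (s : ℂ), 0 < s.re → ∀ w : Fin n → ℂ,
    ∑' x : Fin n → ℤ, gterm A s w x =
      (1 / s ^ (1 / 2 : ℂ)) ^ n * (1 / ((Real.sqrt A.det : ℝ) : ℂ)) * ∑' y : Fin n → ℤ, dterm B s w y := by
  intro n
  induction n with
  | zero =>
    intro A B _ _ s _ w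
    rw [tsum_fintype, tsum_fintype]
    simp [gterm, dterm, qf]
  | succ n ih =>
    intro A B hA hAB s hs w
    have ha := hA.pivot_pos
    have ha' : (A 0 0 : ℂ) ≠ 0 := by exact_mod_cast ha.ne'
    have hs0 : s ≠ 0 := by
      intro h; rw [h] at hs; simp at hs
    have hS := hA.schur
    have hSB := schur_mul_submatrix ha.ne' hAB
    have hB := hA.inv hAB
    let e := Fin.consEquiv (fun _ : Fin (n + 1) => ℤ)
    -- left side as an iterated sum
    have hL : ∑' x : Fin (n + 1) → ℤ, gterm A s w x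
        = ∑' x' : Fin n → ℤ, ∑' x0 : ℤ, gterm A s w (Fin.cons x0 x') := by
      have hsum : Summable (fun p : ℤ × (Fin n → ℤ) => gterm A s w (e p)) :=
        (Equiv.summable_iff e).mpr (hA.summable_gterm hs w)
      rw [← Equiv.tsum_eq e, hsum.tsum_prod]
      exact (Summable.tsum_comm (f := fun (x0 : ℤ) (x' : Fin n → ℤ) =>
        gterm A s w (Fin.cons x0 x')) hsum).symm
    -- right side as an iterated sum
    have hR : ∑' y : Fin (n + 1) → ℤ, dterm B s w y
        = ∑' y0 : ℤ, ∑' y' : Fin n → ℤ, dterm B s w (Fin.cons y0 y') := by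
      have hsum : Summable (fun p : ℤ × (Fin n → ℤ) => dterm B s w (e p)) :=
        (Equiv.summable_iff e).mpr (hB.summable_dterm hs w)
      rw [← Equiv.tsum_eq e, hsum.tsum_prod]
      rfl
    rw [hL, hR]
    simp only [tsum_gterm_cons hA hs]
    rw [tsum_mul_left, Summable.tsum_comm (f := fun (y0 : ℤ) (x' : Fin n → ℤ) =>
      hterm A s w y0 x') (summable_hterm hA hs w)]
    have hstep : ∀ y0 : ℤ, ∑' x' : Fin n → ℤ, hterm A s w y0 x'
        = (1 / s ^ (1 / 2 : ℂ)) ^ n * (1 / ((Real.sqrt (schur A).det : ℝ) : ℂ))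
          * ∑' y' : Fin n → ℤ, dterm B s w (Fin.cons y0 y') := by
      intro y0
      simp only [hterm]
      rw [tsum_mul_left, ih (schur A) (B.submatrix Fin.succ Fin.succ) hS hSB s hs]
      rw [← mul_assoc, mul_comm (cexp _), mul_assoc, ← tsum_mul_left]
      congr 1
      refine tsum_congr fun y' => ?_
      exact hterm_dterm hA hAB s w y0 y'
    simp only [hstep]
    rw [tsum_mul_left, mul_ofReal_cpow_half ha hs0, det_eq_pivot_mul_det_schur A ha.ne',
      Real.sqrt_mul ha.le, pow_succ]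
    push_cast
    have h1 : ((Real.sqrt (A 0 0) : ℝ) : ℂ) ≠ 0 := by
      exact_mod_cast (Real.sqrt_pos.mpr ha).ne'
    have h2 : ((Real.sqrt (schur A).det : ℝ) : ℂ) ≠ 0 := by
      exact_mod_cast (Real.sqrt_pos.mpr hS.det_pos).ne'
    have h3 : s ^ (1 / 2 : ℂ) ≠ 0 := by
      rw [Ne, Complex.cpow_eq_zero_iff]
      exact fun h => hs0 h.1
    field_simp


/-! ### Shifted form (theta series with characteristics) -/

theorem qf_add {A : Matrix (Fin n) (Fin n) ℝ} (hA : ∀ i j, A i j = A j i) (y w : Fin n → ℂ) :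
    qf A (fun i => y i + w i) = qf A y + 2 * ∑ j, cmulVec A w j * y j + qf A w := by
  have h := qf_sub hA y (fun i => -w i)
  have e1 : (fun i => y i - -w i) = fun i => y i + w i := by funext i; ring
  have e2 : cmulVec A (fun i => -w i) = fun j => -cmulVec A w j := by
    funext j
    simp [cmulVec]
  have e3 : qf A (fun i => -w i) = qf A w := by
    simp only [qf]
    refine Finset.sum_congr rfl fun i _ => Finset.sum_congr rfl fun j _ => by ring
  rw [e1, e2, e3] at h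
  rw [h]
  simp only [neg_mul, Finset.sum_neg_distrib]
  ring

theorem cmulVec_smul (A : Matrix (Fin n) (Fin n) ℝ) (c : ℂ) (u : Fin n → ℂ) :
    cmulVec A (fun i => c * u i) = fun j => c * cmulVec A u j := by
  funext j
  simp only [cmulVec, Finset.mul_sum]
  refine Finset.sum_congr rfl fun i _ => by ring

theorem qf_smul (A : Matrix (Fin n) (Fin n) ℝ) (c : ℂ) (u : Fin n → ℂ) :
    qf A (fun i => c * u i) = c ^ 2 * qf A u := by
  simp only [qf, Finset.mul_sum]
  refine Finset.sum_congr rfl fun i _ => Finset.sum_congr rfl fun j _ => by ring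

/-- **Theta inversion with a shift.** For `A` positive definite with inverse `B`, `Re s > 0`:
`∑_x exp(-π s Q_A(x+h)) = s^{-n/2} det(A)^{-1/2} ∑_y exp(-π Q_B(y)/s + 2π i y·h)`. -/
theorem gaussian_poisson_shift (A B : Matrix (Fin n) (Fin n) ℝ) (hA : IsPD A) (hAB : A * B = 1)
    (s : ℂ) (hs : 0 < s.re) (h : Fin n → ℂ) :
    ∑' x : Fin n → ℤ, cexp (-π * s * qf A (fun i => (x i : ℂ) + h i)) =
      (1 / s ^ (1 / 2 : ℂ)) ^ n * (1 / ((Real.sqrt A.det : ℝ) : ℂ)) *
        ∑' y : Fin n → ℤ, cexp (-π / s * qf B (fun i => (y i : ℂ))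
          + 2 * π * I * ∑ i, h i * (y i : ℂ)) := by
  have hs0 : s ≠ 0 := by
    intro h0; rw [h0] at hs; simp at hs
  have hB := hA.inv hAB
  have hBA : B * A = 1 := mul_eq_one_comm.mp hAB
  set w : Fin n → ℂ := fun i => I * s * cmulVec A h i with hw
  have hI : I * I = -1 := I_mul_I
  have h1 : ∀ x : Fin n → ℤ, cexp (-π * s * qf A (fun i => (x i : ℂ) + h i))
      = cexp (-π * s * qf A h) * gterm A s w x := by
    intro x
    rw [gterm, ← Complex.exp_add, qf_add hA.1]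
    congr 1
    have : ∑ i, w i * (x i : ℂ) = I * s * ∑ i, cmulVec A h i * (x i : ℂ) := by
      rw [Finset.mul_sum]
      refine Finset.sum_congr rfl fun i _ => by rw [hw]; ring
    rw [this]
    linear_combination (-2 * (π : ℂ) * s * ∑ i, cmulVec A h i * (x i : ℂ)) * hI
  have h2 : ∀ y : Fin n → ℤ, cexp (-π * s * qf A h) * dterm B s w y
      = cexp (-π / s * qf B (fun i => (y i : ℂ)) + 2 * π * I * ∑ i, h i * (y i : ℂ)) := by
    intro y
    rw [dterm, ← Complex.exp_add, qf_sub hB.1]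
    congr 1
    have hw' : w = fun i => (I * s) * cmulVec A h i := hw
    have e1 : cmulVec B w = fun j => (I * s) * h j := by
      rw [hw', cmulVec_smul]
      funext j
      rw [cmulVec_mul, hBA, cmulVec_one]
    have e2 : qf B w = (I * s) ^ 2 * qf A h := by
      rw [hw', qf_smul, qf_inv_cmulVec hAB]
    have e3 : ∑ j, cmulVec B w j * (y j : ℂ) = I * s * ∑ j, h j * (y j : ℂ) := by
      rw [e1, Finset.mul_sum]
      refine Finset.sum_congr rfl fun i _ => by ring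
    rw [e2, e3]
    field_simp
    linear_combination (-(s ^ 2 * qf A h)) * hI
  simp only [h1]
  rw [tsum_mul_left, gaussian_poisson n A B hA hAB s hs w, ← mul_assoc, mul_comm (cexp _),
    mul_assoc, ← tsum_mul_left]
  congr 1
  exact tsum_congr h2


/-- The case `n = 4`, `s = -iτ` (`τ` in the upper half plane): theta inversion
`∑_x e^{πiτ Q_A(x+h)} = -τ⁻² det(A)^{-1/2} ∑_y e^{πi(-1/τ) Q_B(y) + 2πi y·h}`. -/
theorem theta_inversion_four (A B : Matrix (Fin 4) (Fin 4) ℝ) (hA : IsPD A) (hAB : A * B = 1)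
    (τ : ℂ) (hτ : 0 < τ.im) (h : Fin 4 → ℂ) :
    ∑' x : Fin 4 → ℤ, cexp (π * I * τ * qf A (fun i => (x i : ℂ) + h i)) =
      -(1 / τ ^ 2) * (1 / ((Real.sqrt A.det : ℝ) : ℂ)) *
        ∑' y : Fin 4 → ℤ, cexp (π * I * (-1 / τ) * qf B (fun i => (y i : ℂ))
          + 2 * π * I * ∑ i, h i * (y i : ℂ)) := by
  have hτ0 : τ ≠ 0 := by
    intro h0; rw [h0] at hτ; simp at hτ
  have hs : 0 < (-I * τ).re := by
    simp [mul_re, hτ]
  have hs0 : -I * τ ≠ 0 := mul_ne_zero (neg_ne_zero.mpr I_ne_zero) hτ0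
  have key := gaussian_poisson_shift A B hA hAB (-I * τ) hs h
  have hI : I * I = -1 := I_mul_I
  have e1 : ∀ x : Fin 4 → ℤ, cexp (π * I * τ * qf A (fun i => (x i : ℂ) + h i))
      = cexp (-π * (-I * τ) * qf A (fun i => (x i : ℂ) + h i)) := by
    intro x
    congr 1
    ring
  have e2 : ∀ y : Fin 4 → ℤ, cexp (π * I * (-1 / τ) * qf B (fun i => (y i : ℂ))
          + 2 * π * I * ∑ i, h i * (y i : ℂ))
      = cexp (-π / (-I * τ) * qf B (fun i => (y i : ℂ))
          + 2 * π * I * ∑ i, h i * (y i : ℂ)) := by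
    intro y
    congr 2
    field_simp
    linear_combination (-(qf B fun i => (y i : ℂ))) * hI
  have e3 : (1 / (-I * τ) ^ (1 / 2 : ℂ)) ^ 4 = -(1 / τ ^ 2) := by
    have hsq : ((-I * τ) ^ (1 / 2 : ℂ)) ^ 2 = -I * τ := by
      rw [← Complex.cpow_nat_mul]
      norm_num
    have : ((-I * τ) ^ (1 / 2 : ℂ)) ^ 4 = (-I * τ) ^ 2 := by
      rw [show (4 : ℕ) = 2 * 2 from rfl, pow_mul, hsq]
    rw [one_div, inv_pow, this, mul_pow, neg_sq, I_sq]
    field_simp
  simp only [e1, e2]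
  rw [key, e3]

end Fermat.Agent.S16.H36
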