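import Fermat.Agent.S16.Interface
import Fermat.Agent.S16.H36.GaussPoisson

/-!
# S16 / WP INV (helper36): theta inversion for good lattices, in skeleton shape

`thetaInv_of_isGoodLattice` : `IsGoodLattice p A B → ThetaInv p A B` (any `p ≠ 0`), from the
general Gaussian Poisson summation formula `theta_inversion_four` of `H36/GaussPoisson.lean`.
`theta_inversion` is the exact statement of WP INV of the S16 skeleton.
-/

set_option autoImplicit false

open Complex Real Finset

namespace Fermat.Agent.S16.H36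

/-- Mathlib's `Matrix.PosDef` (real matrices) implies the coordinate version `IsPD`. -/
theorem isPD_of_posDef {n : ℕ} {M : Matrix (Fin n) (Fin n) ℝ} (hM : M.PosDef) : IsPD M := by
  refine ⟨fun i j => ?_, fun x hx => ?_⟩
  · have := hM.isHermitian.apply j i
    simpa using this
  · have h := hM.dotProduct_mulVec_pos hx
    have e : star x ⬝ᵥ M.mulVec x = ∑ i, ∑ j, M i j * x i * x j := by
      simp only [dotProduct, Matrix.mulVec, Pi.star_apply, star_trivial, Finset.mul_sum]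
      refine Finset.sum_congr rfl fun i _ => Finset.sum_congr rfl fun j _ => by ring
    rwa [e] at h

/-- The real inverse of `A` when `A * B = p`. -/
theorem map_mul_smul_map_eq_one {n : ℕ} {p : ℕ} (hp : p ≠ 0) {A B : Matrix (Fin n) (Fin n) ℤ}
    (hAB : A * B = (p : ℤ) • (1 : Matrix (Fin n) (Fin n) ℤ)) :
    A.map (Int.cast : ℤ → ℝ) * ((1 / (p : ℝ)) • B.map (Int.cast : ℤ → ℝ)) = 1 := by
  have hp' : (p : ℝ) ≠ 0 := by exact_mod_cast hp
  ext i j
  have h := congrFun (congrFun hAB i) j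
  simp only [Matrix.mul_apply, Matrix.smul_apply, Matrix.one_apply, smul_eq_mul] at h
  have h' : (∑ k, (A i k : ℝ) * (B k j : ℝ)) = (p : ℝ) * (if i = j then 1 else 0) := by
    have := congrArg (Int.cast : ℤ → ℝ) h
    push_cast at this
    simpa using this
  simp only [Matrix.mul_apply, Matrix.smul_apply, Matrix.map_apply, Matrix.one_apply, smul_eq_mul]
  calc ∑ k, (A i k : ℝ) * (1 / (p : ℝ) * (B k j : ℝ))
      = 1 / (p : ℝ) * ∑ k, (A i k : ℝ) * (B k j : ℝ) := by
        rw [Finset.mul_sum]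
        exact Finset.sum_congr rfl fun k _ => by ring
    _ = if i = j then 1 else 0 := by
        rw [h']
        split_ifs <;> field_simp

theorem qf_map_intCast {n : ℕ} (A : Matrix (Fin n) (Fin n) ℤ) (x : Fin n → ℤ) :
    qf (A.map (Int.cast : ℤ → ℝ)) (fun i => (x i : ℂ)) = ((x ⬝ᵥ A.mulVec x : ℤ) : ℂ) := by
  simp only [qf, dotProduct, Matrix.mulVec, Matrix.map_apply, Finset.mul_sum]
  push_cast
  refine Finset.sum_congr rfl fun i _ => Finset.sum_congr rfl fun j _ => by ring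

theorem cmulVec_map_intCast {n : ℕ} (A : Matrix (Fin n) (Fin n) ℤ) (x : Fin n → ℤ) :
    cmulVec (A.map (Int.cast : ℤ → ℝ)) (fun i => (x i : ℂ)) = fun i => ((A.mulVec x i : ℤ) : ℂ) := by
  funext i
  simp only [cmulVec, dotProduct, Matrix.mulVec, Matrix.map_apply]
  push_cast
  rfl

/-- **WP INV for every good lattice.** -/
theorem thetaInv_of_isGoodLattice (p : ℕ) (hp : p ≠ 0) (A B : Matrix (Fin 4) (Fin 4) ℤ)
    (hA : IsGoodLattice p A B) : ThetaInv p A B := by
  intro y z
  have hpR : (p : ℝ) ≠ 0 := by exact_mod_cast hp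
  have hpC : (p : ℂ) ≠ 0 := by exact_mod_cast hp
  set A' : Matrix (Fin 4) (Fin 4) ℝ := A.map (Int.cast : ℤ → ℝ) with hA'
  set B' : Matrix (Fin 4) (Fin 4) ℝ := (1 / (p : ℝ)) • B.map (Int.cast : ℤ → ℝ) with hB'
  have hPD : IsPD A' := isPD_of_posDef hA.posDef
  have hAB : A' * B' = 1 := map_mul_smul_map_eq_one hp hA.mul_eq
  have hdet : A'.det = (p : ℝ) ^ 2 := by
    have h1 : A'.det = ((A.det : ℤ) : ℝ) := by
      rw [hA']
      exact (Int.cast_det A).symm
    rw [h1, hA.det_eq]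
    push_cast
    rfl
  have hsqrt : Real.sqrt A'.det = (p : ℝ) := by
    rw [hdet]
    exact Real.sqrt_sq (Nat.cast_nonneg p)
  set h : Fin 4 → ℂ := fun i => ((B.mulVec y i : ℤ) : ℂ) / (p : ℂ) with hh
  -- `A' h = y`
  have hAh : cmulVec A' h = fun i => ((y i : ℤ) : ℂ) := by
    have e1 : h = fun i => (1 / (p : ℂ)) * ((B.mulVec y i : ℤ) : ℂ) := by
      funext i
      rw [hh]
      ring
    rw [e1, cmulVec_smul, hA', cmulVec_map_intCast]
    funext i
    have e2 : A.mulVec (B.mulVec y) i = (p : ℤ) * y i := by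
      rw [Matrix.mulVec_mulVec, hA.mul_eq]
      simp
    show 1 / (p : ℂ) * ((A.mulVec (B.mulVec y) i : ℤ) : ℂ) = ((y i : ℤ) : ℂ)
    rw [e2]
    push_cast
    field_simp
  have hL : ∀ x : Fin 4 → ℤ, qf A' (fun i => (x i : ℂ) + h i) =
      (Fermat.Agent.S16.qf A x : ℂ) + 2 * ((x ⬝ᵥ y : ℤ) : ℂ) +
        (Fermat.Agent.S16.qf B y : ℂ) / (p : ℂ) := by
    intro x
    rw [qf_add hPD.1, hAh, qf_eq_sum_cmulVec A' h, hAh, hA', qf_map_intCast]
    have e1 : ∑ j, ((y j : ℤ) : ℂ) * (x j : ℂ) = ((x ⬝ᵥ y : ℤ) : ℂ) := by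
      simp only [dotProduct]
      push_cast
      exact Finset.sum_congr rfl fun j _ => by ring
    have e2 : ∑ i, h i * ((y i : ℤ) : ℂ) = (Fermat.Agent.S16.qf B y : ℂ) / (p : ℂ) := by
      simp only [hh, Fermat.Agent.S16.qf, dotProduct]
      push_cast
      rw [Finset.sum_div]
      exact Finset.sum_congr rfl fun j _ => by ring
    rw [e1, e2]
    rfl
  have hR1 : ∀ w : Fin 4 → ℤ, qf B' (fun i => (w i : ℂ)) =
      (Fermat.Agent.S16.qf B w : ℂ) / (p : ℂ) := by
    intro w
    have := qf_map_intCast B w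
    simp only [qf, Matrix.map_apply] at this
    simp only [qf, hB', Matrix.smul_apply, Matrix.map_apply, smul_eq_mul, Fermat.Agent.S16.qf]
    rw [← this, Finset.sum_div]
    refine Finset.sum_congr rfl fun i _ => ?_
    rw [Finset.sum_div]
    refine Finset.sum_congr rfl fun j _ => ?_
    push_cast
    field_simp
  have hR2 : ∀ w : Fin 4 → ℤ, ∑ i, h i * (w i : ℂ) =
      ((w ⬝ᵥ B.mulVec y : ℤ) : ℂ) / (p : ℂ) := by
    intro w
    simp only [hh, dotProduct]
    push_cast
    rw [Finset.sum_div]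
    exact Finset.sum_congr rfl fun j _ => by ring
  have hz : (z : ℂ) ≠ 0 := UpperHalfPlane.ne_zero z
  have hτ : 0 < ((ModularGroup.S • z : UpperHalfPlane) : ℂ).im := (ModularGroup.S • z).im_pos
  have hτe : ((ModularGroup.S • z : UpperHalfPlane) : ℂ) = (-(z : ℂ))⁻¹ := by
    rw [UpperHalfPlane.modular_S_smul]
  have key := theta_inversion_four A' B' hPD hAB _ hτ h
  unfold thetaChar
  simp only [hL, hR1, hR2, hsqrt] at key
  rw [key, hτe]
  have c1 : -(1 / ((-(z : ℂ))⁻¹) ^ 2) * (1 / (((p : ℝ) : ℂ))) = -(z : ℂ) ^ 2 / (p : ℂ) := by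
    push_cast
    field_simp
  have c2 : (-1 : ℂ) / (-(z : ℂ))⁻¹ = (z : ℂ) := by
    field_simp
  rw [c1, c2]

set_option linter.unusedVariables false in
/-- **WP INV** (exact statement of `Skel.theta_inversion`). -/
theorem theta_inversion (p : ℕ) [Fact p.Prime] (q r t : ℤ) (hq : 0 < q) (hq4 : q % 4 = 3)
    (hrt : r ^ 2 + (p : ℤ) = q * t) (B : Matrix (Fin 4) (Fin 4) ℤ)
    (hA : IsGoodLattice p (ibuA p q r t) B) : ThetaInv p (ibuA p q r t) B :=
  thetaInv_of_isGoodLattice p (Fact.out : p.Prime).ne_zero _ B hA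

end Fermat.Agent.S16.H36
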